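/-
Programme MZ (S15, Mazur), area DESC (helper7): **the Kummer map of `J₀(N)(ℚ)`**.

For a level `N`, an integer `m > 0` and a finite set `S` of primes containing the primes dividing
`m * N`:

* `torRep N m : Rep ℤ GQ`, the Galois module `J₀(N)(ℚ̄)[m]` (carrier `Pic0.torsion … m`);
  `isDiscrete_torRep` : it is a discrete `G_S`-module;
* `kappa N m hm S hmS hNS : J₀(N)(ℚ) →+ H¹(G_S, J[m])` (`HS1 S (torRep N m)`), the Kummer map,
  `kappa_eq` (any `m`-th root `y` of `x` computes it by the cocycle `σ ↦ σ y - y`),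
  `kappa_eq_zero` : **injectivity mod `m`**: `kappa x = 0 → ∃ w ∈ J(ℚ), x = m • w`;
* `kappa_natural` : naturality for additive endomorphisms of `JZero N` commuting with `GQ` (Hecke
  operators, idempotents);
* `resq1_kappa` : the local class at a prime `q` is the class of `τ ↦ r_q(τ) y - y`;
* `resq1_kappa_mem_H1ur` : if `x` has an `m`-th root fixed by the inertia group at `q`, the local
  class at `q` is unramified.

Everything "outside `S`" (unramifiedness of the Kummer classes at the good primes, i.e. S18-type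
injectivity of the reduction on torsion) is inside the statement that `kappa` takes values in
`HS1 S`: the cocycles are level cocycles for `levelS S` (`ES/TOP/TorsionGalois12.sp`).
-/
import Mathlib
import Fermat.Agent.MW.B.WeakMW1
import Fermat.Agent.MW.A.NSGlue2
import Fermat.Agent.TW.DEF.Basic1
import Fermat.Agent.TW.LOC.Defs2

set_option autoImplicit false
set_option linter.unusedSectionVars false
set_option linter.style.haveILetI false

noncomputable section

open AlgebraicCurve ModularCurve groupCohomology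
open Fermat.Agent.PT.PRO.LevelCoh28 Fermat.Agent.PT.PRO.LevelCohRes28
open Fermat.Agent.PT.GLUE.Objects21
open Fermat.Agent.TW.DEF.Basic1

namespace Fermat.Agent.MZ.DESC.Kummer7

local notation "Qbar" => AlgebraicClosure ℚ

variable (N : ℕ) [NeZero N] (m : ℕ)

/-- `J₀(N)(ℚ̄)[m]`. -/
abbrev Tor : AddSubgroup (JZero N) := Pic0.torsion Qbar (modularFunctionFieldBar N) m

theorem mem_Tor_iff (x : JZero N) : x ∈ Tor N m ↔ m • x = 0 := by
  rw [Pic0.mem_torsion, natCast_zsmul]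

theorem smul_mem_Tor (σ : GQ) {x : JZero N} (hx : x ∈ Tor N m) : σ • x ∈ Tor N m := by
  rw [mem_Tor_iff] at hx ⊢
  rw [← Fermat.Agent.ES.TOP.TorsionGalois12.smul_nsmul_comm σ m x, hx, smul_zero]

/-- The Galois action on `J[m]`, as a `ℤ`-linear representation. -/
def torRepn : Representation ℤ GQ ↥(Tor N m) where
  toFun σ :=
    { toFun := fun x => ⟨σ • (x : JZero N), smul_mem_Tor N m σ x.2⟩
      map_add' := fun x y => Subtype.ext (by
        show σ • ((x : JZero N) + (y : JZero N)) = σ • (x : JZero N) + σ • (y : JZero N)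
        rw [smul_add])
      map_smul' := fun c x => Subtype.ext (by
        show σ • ((c • x : ↥(Tor N m)) : JZero N) = c • (σ • (x : JZero N))
        rw [AddSubgroup.coe_zsmul]
        exact map_zsmul (DistribSMul.toAddMonoidHom (JZero N) σ) c (x : JZero N)) }
  map_one' := by
    refine LinearMap.ext fun x => Subtype.ext ?_
    show (1 : GQ) • (x : JZero N) = x
    rw [one_smul]
  map_mul' σ τ := by
    refine LinearMap.ext fun x => Subtype.ext ?_
    show (σ * τ) • (x : JZero N) = σ • τ • (x : JZero N)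
    rw [mul_smul]

/-- `J₀(N)(ℚ̄)[m]` as an object of `Rep ℤ GQ`. -/
abbrev torRep : Rep.{0} ℤ GQ := Rep.of (torRepn N m)

theorem coe_torRep_ρ (σ : GQ) (x : torRep N m) :
    (((torRep N m).ρ σ x : ↥(Tor N m)) : JZero N) = σ • ((x : ↥(Tor N m)) : JZero N) := rfl

/-! ### Inertia outside `S` acts trivially on `m`-th roots of rational classes -/

variable {N m}

/-- At `q ∤ m N`, an inertia element fixes `y` as soon as `τ y - y` is `m`-torsion. -/
theorem inertia_smul_eq {q : ℕ} (hq : q.Prime) (hqN : ¬ q ∣ N) (hqm : ¬ q ∣ m)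
    {A : ValuationSubring Qbar} (hA : A.LiesOverPrime q) {τ : GQ}
    (hτ : τ ∈ A.inertiaSubgroupIn ℚ) (y : JZero N) (hy : m • (τ • y - y) = 0) : τ • y = y := by
  obtain ⟨G, _, Φ, h1, -, h3⟩ := Fermat.Agent.ES.TOP.TorsionGalois12.sp N q hq hqN A hA
  have h0 : τ • y - y = 0 :=
    h3 m (τ • y - y) hqm hy (by rw [map_sub, h1 τ hτ y, sub_self])
  exact sub_eq_zero.1 h0

variable (S : Finset Nat.Primes)

/-- A class `y` whose `m`-th multiple is rational is fixed exactly by the fixing subgroup of a field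
unramified outside `S ⊇ primes(m N)`. -/
theorem exists_field_stabilizer (hmS : ∀ q : Nat.Primes, (q : ℕ) ∣ m → q ∈ S)
    (hNS : ∀ q : Nat.Primes, (q : ℕ) ∣ N → q ∈ S) (y : JZero N)
    (hy : ∀ σ : GQ, σ • (m • y) = m • y) :
    ∃ F : IntermediateField ℚ Qbar, F.IsUnramifiedOutside S ∧
      F.fixingSubgroup = MulAction.stabilizer GQ y := by
  refine Fermat.Agent.MW.B.WeakMW1.exists_unramified_field S (MulAction.stabilizer GQ y) ?_ ?_
  · obtain ⟨L, hL, H⟩ := Fermat.Agent.ES.GAL.OpenStab12.hasLevel_pic0 N y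
    refine ⟨L, hL, fun σ hσ => ?_⟩
    rw [MulAction.mem_stabilizer_iff]
    exact H σ ((IntermediateField.mem_fixingSubgroup_iff _ _).1 hσ)
  · intro q hq A hA τ hτ
    rw [MulAction.mem_stabilizer_iff]
    refine inertia_smul_eq q.2 (fun h => hq (hNS q h)) (fun h => hq (hmS q h)) hA hτ y ?_
    have h1 : m • (τ • y) = m • y := by
      rw [← Fermat.Agent.ES.TOP.TorsionGalois12.smul_nsmul_comm τ m y]
      exact hy τ
    rw [nsmul_sub, h1, sub_self]

variable (N m)

/-- `J[m]` is a discrete `G_S`-module. -/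
theorem isDiscrete_torRep (hmS : ∀ q : Nat.Primes, (q : ℕ) ∣ m → q ∈ S)
    (hNS : ∀ q : Nat.Primes, (q : ℕ) ∣ N → q ∈ S) :
    IsDiscrete (levelS S).sets (torRep N m) := by
  intro a
  have ha : m • ((a : ↥(Tor N m)) : JZero N) = 0 := (mem_Tor_iff N m _).1 (Subtype.prop a)
  obtain ⟨F, hF, hfix⟩ := exists_field_stabilizer S hmS hNS ((a : ↥(Tor N m)) : JZero N)
    (fun σ => by rw [ha]; exact smul_zero (A := JZero N) σ)
  refine ⟨F.fixingSubgroup, ⟨F, hF, rfl⟩, fun s hs => Subtype.ext ?_⟩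
  rw [hfix] at hs
  exact MulAction.mem_stabilizer_iff.1 hs

/-! ### The Kummer cocycle -/

variable {N m}

/-- `σ ↦ σ y - y`, for `y` with `m • y` rational. -/
def kum (y : JZero N) (hy : ∀ σ : GQ, σ • (m • y) = m • y) : GQ → torRep N m := fun σ =>
  (⟨σ • y - y, (mem_Tor_iff N m _).2 (by
    have h1 : m • (σ • y) = m • y := by
      rw [← Fermat.Agent.ES.TOP.TorsionGalois12.smul_nsmul_comm σ m y]
      exact hy σ
    rw [nsmul_sub, h1, sub_self])⟩ : ↥(Tor N m))

theorem coe_kum (y : JZero N) (hy : ∀ σ : GQ, σ • (m • y) = m • y) (σ : GQ) :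
    ((kum y hy σ : ↥(Tor N m)) : JZero N) = σ • y - y := rfl

theorem kum_mem_cocycles (y : JZero N) (hy : ∀ σ : GQ, σ • (m • y) = m • y) :
    kum y hy ∈ cocycles₁ (torRep N m) := by
  rw [mem_cocycles₁_iff]
  intro g h
  refine Subtype.ext ?_
  show (g * h) • y - y = g • (h • y - y) + (g • y - y)
  rw [mul_smul, smul_sub]
  abel

theorem kum_isLevel (hmS : ∀ q : Nat.Primes, (q : ℕ) ∣ m → q ∈ S)
    (hNS : ∀ q : Nat.Primes, (q : ℕ) ∣ N → q ∈ S) (y : JZero N)
    (hy : ∀ σ : GQ, σ • (m • y) = m • y) :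
    IsLevel₁ (levelS S).sets (kum y hy) := by
  obtain ⟨F, hF, hfix⟩ := exists_field_stabilizer S hmS hNS y hy
  refine ⟨F.fixingSubgroup, ⟨F, hF, rfl⟩, fun g s hs => Subtype.ext ?_⟩
  have hsy : s • y = y := by
    rw [hfix] at hs
    exact MulAction.mem_stabilizer_iff.1 hs
  show (g * s) • y - y = g • y - y
  rw [mul_smul, hsy]

/-- The Kummer cocycle as a level cocycle for `levelS S`. -/
def kumZ (hmS : ∀ q : Nat.Primes, (q : ℕ) ∣ m → q ∈ S)
    (hNS : ∀ q : Nat.Primes, (q : ℕ) ∣ N → q ∈ S) (y : JZero N)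
    (hy : ∀ σ : GQ, σ • (m • y) = m • y) : ↥(Z1 (levelS S) (torRep N m)) :=
  ⟨kum y hy, kum_mem_cocycles y hy, kum_isLevel S hmS hNS y hy⟩

theorem coe_kumZ (hmS : ∀ q : Nat.Primes, (q : ℕ) ∣ m → q ∈ S)
    (hNS : ∀ q : Nat.Primes, (q : ℕ) ∣ N → q ∈ S) (y : JZero N)
    (hy : ∀ σ : GQ, σ • (m • y) = m • y) :
    ((kumZ S hmS hNS y hy : ↥(Z1 (levelS S) (torRep N m))) : GQ → torRep N m) = kum y hy := rfl

/-- The class of the Kummer cocycle. -/
def kumClass (hmS : ∀ q : Nat.Primes, (q : ℕ) ∣ m → q ∈ S)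
    (hNS : ∀ q : Nat.Primes, (q : ℕ) ∣ N → q ∈ S) (y : JZero N)
    (hy : ∀ σ : GQ, σ • (m • y) = m • y) : HS1 S (torRep N m) :=
  H1mk (levelS S) (torRep N m) (kumZ S hmS hNS y hy)

/-- Two roots of the same class give the same Kummer class. -/
theorem kumClass_eq_of_nsmul_eq (hmS : ∀ q : Nat.Primes, (q : ℕ) ∣ m → q ∈ S)
    (hNS : ∀ q : Nat.Primes, (q : ℕ) ∣ N → q ∈ S) (y y' : JZero N)
    (hy : ∀ σ : GQ, σ • (m • y) = m • y) (hy' : ∀ σ : GQ, σ • (m • y') = m • y')
    (h : m • y = m • y') : kumClass S hmS hNS y hy = kumClass S hmS hNS y' hy' := by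
  unfold kumClass
  rw [← sub_eq_zero, ← map_sub, H1mk_eq_zero_iff]
  have ht : y - y' ∈ Tor N m := (mem_Tor_iff N m _).2 (by rw [nsmul_sub, h, sub_self])
  refine ⟨(⟨y - y', ht⟩ : ↥(Tor N m)), ?_⟩
  funext σ
  refine Subtype.ext ?_
  rw [d₀₁_hom_apply]
  show σ • (y - y') - (y - y') = (σ • y - y) - (σ • y' - y')
  rw [smul_sub]
  abel

theorem kumClass_add (hmS : ∀ q : Nat.Primes, (q : ℕ) ∣ m → q ∈ S)
    (hNS : ∀ q : Nat.Primes, (q : ℕ) ∣ N → q ∈ S) (y y' : JZero N)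
    (hy : ∀ σ : GQ, σ • (m • y) = m • y) (hy' : ∀ σ : GQ, σ • (m • y') = m • y')
    (hyy' : ∀ σ : GQ, σ • (m • (y + y')) = m • (y + y')) :
    kumClass S hmS hNS (y + y') hyy' = kumClass S hmS hNS y hy + kumClass S hmS hNS y' hy' := by
  unfold kumClass
  rw [← map_add]
  congr 1
  refine Subtype.ext ?_
  funext σ
  refine Subtype.ext ?_
  show σ • (y + y') - (y + y') = (σ • y - y) + (σ • y' - y')
  rw [smul_add]
  abel

/-- If the Kummer class of `y` vanishes, `m • y` is `m` times a rational class. -/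
theorem exists_rational_of_kumClass_eq_zero (hmS : ∀ q : Nat.Primes, (q : ℕ) ∣ m → q ∈ S)
    (hNS : ∀ q : Nat.Primes, (q : ℕ) ∣ N → q ∈ S) (y : JZero N)
    (hy : ∀ σ : GQ, σ • (m • y) = m • y) (h : kumClass S hmS hNS y hy = 0) :
    ∃ w : JZero N, (∀ σ : GQ, σ • w = w) ∧ m • w = m • y := by
  unfold kumClass at h
  rw [H1mk_eq_zero_iff] at h
  obtain ⟨t, ht⟩ := h
  have ht' : ∀ σ : GQ, σ • ((t : ↥(Tor N m)) : JZero N) - ((t : ↥(Tor N m)) : JZero N)
      = σ • y - y := by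
    intro σ
    have h1 := congrFun ht σ
    rw [d₀₁_hom_apply] at h1
    exact congrArg (fun z : ↥(Tor N m) => (z : JZero N)) h1
  refine ⟨y - ((t : ↥(Tor N m)) : JZero N), fun σ => ?_, ?_⟩
  · rw [smul_sub, sub_eq_sub_iff_sub_eq_sub]
    exact (ht' σ).symm
  · rw [nsmul_sub, (mem_Tor_iff N m _).1 (Subtype.prop t), sub_zero]

/-! ### The Kummer map -/

variable (N m)

/-- The rational points `J₀(N)(ℚ)`. -/
abbrev JQ : AddSubgroup (JZero N) := FixedPoints.addSubgroup GQ (JZero N)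

variable {N m}

theorem smul_eq_of_mem_JQ (x : ↥(JQ N)) (σ : GQ) : σ • (x : JZero N) = x := x.2 σ

/-- A chosen `m`-th root. -/
def root (hm : 0 < m) (x : JZero N) : JZero N :=
  (Fermat.Agent.MW.A.NSGlue2.jzero_divisible N m hm x).choose

theorem nsmul_root (hm : 0 < m) (x : JZero N) : m • root hm x = x :=
  (Fermat.Agent.MW.A.NSGlue2.jzero_divisible N m hm x).choose_spec

theorem root_rational (hm : 0 < m) (x : ↥(JQ N)) (σ : GQ) :
    σ • (m • root hm (x : JZero N)) = m • root hm (x : JZero N) := by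
  rw [nsmul_root]
  exact smul_eq_of_mem_JQ x σ

/-- **The Kummer map** `J₀(N)(ℚ) → H¹(G_S, J₀(N)[m])`. -/
def kappa (hm : 0 < m) (hmS : ∀ q : Nat.Primes, (q : ℕ) ∣ m → q ∈ S)
    (hNS : ∀ q : Nat.Primes, (q : ℕ) ∣ N → q ∈ S) : ↥(JQ N) →+ HS1 S (torRep N m) where
  toFun x := kumClass S hmS hNS (root hm (x : JZero N)) (root_rational hm x)
  map_zero' := by
    have h0 : ∀ σ : GQ, σ • (m • (0 : JZero N)) = m • (0 : JZero N) := fun σ => by
      rw [smul_zero]; exact smul_zero (A := JZero N) σ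
    rw [kumClass_eq_of_nsmul_eq S hmS hNS _ 0 (root_rational hm 0) h0
      (by rw [nsmul_root, smul_zero]; rfl)]
    unfold kumClass
    rw [H1mk_eq_zero_iff]
    refine ⟨0, ?_⟩
    funext σ
    refine Subtype.ext ?_
    rw [d₀₁_hom_apply]
    show σ • ((0 : ↥(Tor N m)) : JZero N) - ((0 : ↥(Tor N m)) : JZero N) = σ • (0 : JZero N) - 0
    rfl
  map_add' x x' := by
    have hyy' : ∀ σ : GQ, σ • (m • (root hm (x : JZero N) + root hm (x' : JZero N)))
        = m • (root hm (x : JZero N) + root hm (x' : JZero N)) := fun σ => by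
      rw [nsmul_add, nsmul_root, nsmul_root, smul_add, smul_eq_of_mem_JQ x σ,
        smul_eq_of_mem_JQ x' σ]
    rw [← kumClass_add S hmS hNS _ _ (root_rational hm x) (root_rational hm x') hyy']
    refine kumClass_eq_of_nsmul_eq S hmS hNS _ _ _ _ ?_
    rw [nsmul_root, nsmul_add, nsmul_root, nsmul_root]
    rfl

/-- Any `m`-th root computes the Kummer class. -/
theorem kappa_eq (hm : 0 < m) (hmS : ∀ q : Nat.Primes, (q : ℕ) ∣ m → q ∈ S)
    (hNS : ∀ q : Nat.Primes, (q : ℕ) ∣ N → q ∈ S) (x : ↥(JQ N)) (y : JZero N)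
    (hyx : m • y = (x : JZero N)) :
    ∃ hy : ∀ σ : GQ, σ • (m • y) = m • y, kappa S hm hmS hNS x = kumClass S hmS hNS y hy := by
  have hy : ∀ σ : GQ, σ • (m • y) = m • y := fun σ => by
    rw [hyx]; exact smul_eq_of_mem_JQ x σ
  refine ⟨hy, ?_⟩
  show kumClass S hmS hNS (root hm (x : JZero N)) (root_rational hm x) = _
  refine kumClass_eq_of_nsmul_eq S hmS hNS _ _ _ _ ?_
  rw [nsmul_root, hyx]

/-- **Injectivity of the Kummer map modulo `m`.** -/
theorem kappa_eq_zero (hm : 0 < m) (hmS : ∀ q : Nat.Primes, (q : ℕ) ∣ m → q ∈ S)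
    (hNS : ∀ q : Nat.Primes, (q : ℕ) ∣ N → q ∈ S) (x : ↥(JQ N))
    (h : kappa S hm hmS hNS x = 0) : ∃ w : ↥(JQ N), x = m • w := by
  obtain ⟨w, hw, hwm⟩ := exists_rational_of_kumClass_eq_zero S hmS hNS
    (root hm (x : JZero N)) (root_rational hm x) h
  refine ⟨⟨w, hw⟩, Subtype.ext ?_⟩
  rw [AddSubgroup.coe_nsmul]
  show (x : JZero N) = m • w
  rw [hwm, nsmul_root]

/-- `kappa` kills `m • J(ℚ)`. -/
theorem kappa_nsmul (hm : 0 < m) (hmS : ∀ q : Nat.Primes, (q : ℕ) ∣ m → q ∈ S)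
    (hNS : ∀ q : Nat.Primes, (q : ℕ) ∣ N → q ∈ S) (w : ↥(JQ N)) :
    kappa S hm hmS hNS (m • w) = 0 := by
  obtain ⟨hy, h⟩ := kappa_eq S hm hmS hNS (m • w) (w : JZero N) (by
    rw [AddSubgroup.coe_nsmul])
  rw [h]
  unfold kumClass
  rw [H1mk_eq_zero_iff]
  refine ⟨0, ?_⟩
  funext σ
  refine Subtype.ext ?_
  rw [d₀₁_hom_apply]
  show σ • ((0 : ↥(Tor N m)) : JZero N) - ((0 : ↥(Tor N m)) : JZero N)
    = σ • (w : JZero N) - (w : JZero N)
  rw [smul_eq_of_mem_JQ w σ, sub_self]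
  show σ • (0 : JZero N) - 0 = 0
  rw [sub_zero]
  exact smul_zero (A := JZero N) σ

/-! ### Naturality -/

/-- The endomorphism of `J[m]` induced by an additive endomorphism of `JZero N`. -/
def torMap (t : JZero N →+ JZero N) : torRep N m →ₗ[ℤ] torRep N m :=
  AddMonoidHom.toIntLinearMap
    { toFun := fun x => (⟨t ((x : ↥(Tor N m)) : JZero N), (mem_Tor_iff N m _).2 (by
        rw [← map_nsmul, (mem_Tor_iff N m _).1 (Subtype.prop x), map_zero])⟩ : ↥(Tor N m))
      map_zero' := Subtype.ext (map_zero t)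
      map_add' := fun x y => Subtype.ext (map_add t _ _) }

theorem coe_torMap (t : JZero N →+ JZero N) (x : torRep N m) :
    ((torMap t x : ↥(Tor N m)) : JZero N) = t ((x : ↥(Tor N m)) : JZero N) := rfl

theorem torMap_equivariant (t : JZero N →+ JZero N) (ht : ∀ (σ : GQ) (y : JZero N), t (σ • y) = σ • t y)
    (g : GQ) (a : torRep N m) :
    torMap (m := m) t ((torRep N m).ρ g a) = (torRep N m).ρ g (torMap t a) :=
  Subtype.ext (ht g _)

/-- **Naturality of the Kummer map** for Galois-equivariant endomorphisms of `JZero N`. -/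
theorem kappa_natural (hm : 0 < m) (hmS : ∀ q : Nat.Primes, (q : ℕ) ∣ m → q ∈ S)
    (hNS : ∀ q : Nat.Primes, (q : ℕ) ∣ N → q ∈ S) (t : JZero N →+ JZero N)
    (ht : ∀ (σ : GQ) (y : JZero N), t (σ • y) = σ • t y) (x : ↥(JQ N)) :
    mapH1 (𝓑 := levelS S) (torMap (m := m) t) (torMap_equivariant t ht) (kappa S hm hmS hNS x)
      = kappa S hm hmS hNS ⟨t (x : JZero N), fun σ => by
          rw [← ht, smul_eq_of_mem_JQ x σ]⟩ := by
  set x' : ↥(JQ N) := ⟨t (x : JZero N), fun σ => by rw [← ht, smul_eq_of_mem_JQ x σ]⟩ with hx'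
  obtain ⟨hy, h⟩ := kappa_eq S hm hmS hNS x (root hm (x : JZero N)) (nsmul_root hm _)
  obtain ⟨hy', h'⟩ := kappa_eq S hm hmS hNS x' (t (root hm (x : JZero N))) (by
    rw [← map_nsmul, nsmul_root])
  rw [h, h']
  unfold kumClass
  rw [mapH1_mk]
  congr 1
  refine Subtype.ext ?_
  funext σ
  refine Subtype.ext ?_
  show t (σ • root hm (x : JZero N) - root hm (x : JZero N))
    = σ • t (root hm (x : JZero N)) - t (root hm (x : JZero N))
  rw [map_sub, ht]

/-! ### Local classes -/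

section Local

variable (q : ℕ) [Fact q.Prime]

/-- The local Kummer cocycle `τ ↦ r_q(τ) y - y`. -/
theorem resZ1_kumZ_apply (hmS : ∀ q : Nat.Primes, (q : ℕ) ∣ m → q ∈ S)
    (hNS : ∀ q : Nat.Primes, (q : ℕ) ∣ N → q ∈ S) (y : JZero N)
    (hy : ∀ σ : GQ, σ • (m • y) = m • y) (τ : Gq q) :
    (((resZ1 S (torRep N m) q (kumZ S hmS hNS y hy)).1 τ : ↥(Tor N m)) : JZero N)
      = (rq q τ) • y - y := rfl

/-- The local class of `kappa x` is the class of the restricted Kummer cocycle of any root. -/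
theorem resq1_kappa (hm : 0 < m) (hmS : ∀ q : Nat.Primes, (q : ℕ) ∣ m → q ∈ S)
    (hNS : ∀ q : Nat.Primes, (q : ℕ) ∣ N → q ∈ S) (x : ↥(JQ N)) (y : JZero N)
    (hyx : m • y = (x : JZero N)) :
    ∃ hy : ∀ σ : GQ, σ • (m • y) = m • y,
      resq1 S (torRep N m) q (kappa S hm hmS hNS x)
        = H1mk (levelLoc q) (Mq (torRep N m) q) (resZ1 S (torRep N m) q (kumZ S hmS hNS y hy)) := by
  obtain ⟨hy, h⟩ := kappa_eq S hm hmS hNS x y hyx
  refine ⟨hy, ?_⟩
  rw [h]
  rfl

/-- **Unramifiedness criterion**: if `x` has an `m`-th root fixed by the inertia group at `q`, the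
local Kummer class at `q` is unramified. -/
theorem resq1_kappa_mem_H1ur (hm : 0 < m) (hmS : ∀ q : Nat.Primes, (q : ℕ) ∣ m → q ∈ S)
    (hNS : ∀ q : Nat.Primes, (q : ℕ) ∣ N → q ∈ S) (x : ↥(JQ N)) (y : JZero N)
    (hyx : m • y = (x : JZero N))
    (hfix : ∀ τ ∈ Fermat.Agent.TW.LOC.Defs2.Iq q, (rq q τ) • y = y) :
    resq1 S (torRep N m) q (kappa S hm hmS hNS x)
      ∈ Fermat.Agent.TW.LOC.Defs2.H1ur q (Mq (torRep N m) q) := by
  obtain ⟨hy, h⟩ := resq1_kappa S q hm hmS hNS x y hyx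
  rw [h]
  refine ⟨resZ1 S (torRep N m) q (kumZ S hmS hNS y hy), rfl, 0, fun τ hτ => ?_⟩
  refine Subtype.ext ?_
  rw [map_zero, sub_zero]
  show (rq q τ) • y - y = 0
  rw [hfix τ hτ, sub_self]

end Local

end Fermat.Agent.MZ.DESC.Kummer7
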